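import Fermat.Agent.S20.L1.Ramanujan

/-!
# Level-one input for S20: exports in the exact shapes used by the skeletons

(helper140) Corollaries of `Ramanujan.lean` stated exactly as in
`Spec.lean` (T4a-c, T5c, T5d-derivative part) and `Bracket.lean` (A2).
-/

set_option autoImplicit false

open UpperHalfPlane ModularForm EisensteinSeries Derivative Filter Topology
open scoped MatrixGroups Manifold

noncomputable section

namespace Fermat.Agent.S20.L1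

local notation "Δ" => ModularForm.discriminant

/-- T4a. -/
theorem ramanujan_E₄' :
    normalizedDerivOfComplex (⇑E₄) = (3 : ℂ)⁻¹ • (E2 * ⇑E₄ - ⇑E₆) := by
  funext z
  simp [ramanujan_E₄ z]

/-- T4b. -/
theorem ramanujan_E₆' :
    normalizedDerivOfComplex (⇑E₆) = (2 : ℂ)⁻¹ • (E2 * ⇑E₆ - ⇑E₄ * ⇑E₄) := by
  funext z
  simp [ramanujan_E₆ z, pow_two]

/-- T4c. -/
theorem ramanujan_discriminant' :
    normalizedDerivOfComplex discriminant = E2 * discriminant := by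
  funext z
  simp [ramanujan_discriminant z]

lemma two_pi_I_ne_zero : (2 * (Real.pi : ℂ) * Complex.I) ≠ 0 := by
  simp [Real.pi_ne_zero]

lemma deriv_eq_two_pi_I_mul_D (F : ℍ → ℂ) (z : ℍ) :
    deriv (F ∘ ofComplex) z = 2 * (Real.pi : ℂ) * Complex.I * D F z := by
  simp only [normalizedDerivOfComplex]
  rw [← mul_assoc, mul_inv_cancel₀ two_pi_I_ne_zero, one_mul]

lemma deriv_ne_zero_iff_D_ne_zero (F : ℍ → ℂ) (z : ℍ) :
    deriv (F ∘ ofComplex) z ≠ 0 ↔ D F z ≠ 0 := by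
  rw [deriv_eq_two_pi_I_mul_D]
  simp [Real.pi_ne_zero]

/-- T5c. Zeros of `E₆` are simple. -/
theorem deriv_E₆_ne_zero (z : ℍ) (hz : E₆ z = 0) : deriv (⇑E₆ ∘ ofComplex) z ≠ 0 :=
  (deriv_ne_zero_iff_D_ne_zero _ z).mpr (D_E₆_ne_zero hz)

/-- T5c. Zeros of `E₄` are simple. -/
theorem deriv_E₄_ne_zero (z : ℍ) (hz : E₄ z = 0) : deriv (⇑E₄ ∘ ofComplex) z ≠ 0 :=
  (deriv_ne_zero_iff_D_ne_zero _ z).mpr (D_E₄_ne_zero hz)

lemma E₄_ne_zero_of_jDiff_eq_zero {z₀ z : ℍ} (h4 : E₄ z₀ ≠ 0) (hz : jDiff z₀ z = 0) :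
    E₄ z ≠ 0 := by
  intro h
  simp only [jDiff, h] at hz
  have : E₄ z₀ ^ 3 * Δ z = 0 := by linear_combination -hz
  rcases mul_eq_zero.mp this with h' | h'
  · exact h4 (pow_eq_zero_iff (by norm_num) |>.mp h')
  · exact discriminant_ne_zero z h'

lemma E₆_ne_zero_of_jDiff_eq_zero {z₀ z : ℍ} (h6 : E₆ z₀ ≠ 0) (hz : jDiff z₀ z = 0) :
    E₆ z ≠ 0 := by
  intro h
  have h1 := E₄_cube_sub_E₆_sq z
  have h2 := E₄_cube_sub_E₆_sq z₀
  simp only [jDiff] at hz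
  rw [h] at h1
  -- E₄ z ^ 3 = 1728 Δ z, so 1728 Δ z Δ z₀ = E₄ z₀ ^ 3 Δ z, so E₄ z₀ ^ 3 = 1728 Δ z₀
  have h3 : Δ z * (1728 * Δ z₀ - E₄ z₀ ^ 3) = 0 := by
    linear_combination hz - Δ z₀ * h1
  rcases mul_eq_zero.mp h3 with h' | h'
  · exact discriminant_ne_zero z h'
  · have : E₆ z₀ ^ 2 = 0 := by linear_combination -h' - h2
    exact h6 (pow_eq_zero_iff (by norm_num) |>.mp this)

/-- Zeros of `jDiff z₀` are simple when `z₀` is not elliptic. -/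
theorem D_jDiff_ne_zero' {z₀ z : ℍ} (h4 : E₄ z₀ ≠ 0) (h6 : E₆ z₀ ≠ 0) (hz : jDiff z₀ z = 0) :
    D (jDiff z₀) z ≠ 0 :=
  D_jDiff_ne_zero hz (E₄_ne_zero_of_jDiff_eq_zero h4 hz) (E₆_ne_zero_of_jDiff_eq_zero h6 hz)

/-- T5d (derivative part). -/
theorem generic_deriv_ne_zero (z₀ z : ℍ) (h4 : E₄ z₀ ≠ 0) (h6 : E₆ z₀ ≠ 0)
    (hz : E₄ z₀ ^ 3 * discriminant z - discriminant z₀ * E₄ z ^ 3 = 0) :
    deriv ((fun w : ℍ => E₄ z₀ ^ 3 * discriminant w - discriminant z₀ * E₄ w ^ 3) ∘ ofComplex) z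
      ≠ 0 := by
  have hfun : (fun w : ℍ => E₄ z₀ ^ 3 * discriminant w - discriminant z₀ * E₄ w ^ 3)
      = (-1 : ℂ) • jDiff z₀ := by
    funext w
    simp only [jDiff, Pi.smul_apply, smul_eq_mul]
    ring
  have hz' : jDiff z₀ z = 0 := by
    simp only [jDiff]
    linear_combination -hz
  rw [hfun, deriv_ne_zero_iff_D_ne_zero, normalizedDerivOfComplex_smul _ _ (mdiff_jDiff z₀)]
  simpa using D_jDiff_ne_zero' h4 h6 hz'

/-- **A2** (`Bracket.lean`): `2 E₄ E₆' - 3 E₄' E₆ = -1728 · 2πi · Δ` has no zero on `ℍ`. -/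
theorem bracket_eq (z : ℍ) :
    2 * E₄ z * deriv (⇑E₆ ∘ ofComplex) z - 3 * deriv (⇑E₄ ∘ ofComplex) z * E₆ z
      = -(2 * (Real.pi : ℂ) * Complex.I) * 1728 * Δ z := by
  rw [deriv_eq_two_pi_I_mul_D, deriv_eq_two_pi_I_mul_D, ramanujan_E₄, ramanujan_E₆]
  have := E₄_cube_sub_E₆_sq z
  linear_combination (-(2 * (Real.pi : ℂ) * Complex.I)) * this

theorem bracket_ne_zero (z : ℍ) :
    2 * E₄ z * deriv (⇑E₆ ∘ ofComplex) z - 3 * deriv (⇑E₄ ∘ ofComplex) z * E₆ z ≠ 0 := by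
  rw [bracket_eq]
  exact mul_ne_zero (mul_ne_zero (neg_ne_zero.mpr two_pi_I_ne_zero) (by norm_num))
    (discriminant_ne_zero z)

/-- `Pform τ₀ := E₄³ E₆(τ₀)² - E₆² E₄(τ₀)³` of helper860's skeleton equals `-1728 • jDiff τ₀`. -/
lemma Pform_eq_jDiff (τ₀ z : ℍ) :
    E₄ z ^ 3 * E₆ τ₀ ^ 2 - E₆ z ^ 2 * E₄ τ₀ ^ 3 = -1728 * jDiff τ₀ z := by
  have h1 := E₄_cube_sub_E₆_sq z
  have h2 := E₄_cube_sub_E₆_sq τ₀
  simp only [jDiff]
  linear_combination (-(E₄ z ^ 3)) * h2 + E₄ τ₀ ^ 3 * h1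

/-- `j z = j w` in the denominator-free `E₄, E₆` form of helper860's skeleton. -/
lemma j_eq_iff_E₄_E₆ (z w : ℍ) :
    E₄ z ^ 3 * E₆ w ^ 2 = E₄ w ^ 3 * E₆ z ^ 2 ↔ E₄ z ^ 3 * Δ w = E₄ w ^ 3 * Δ z := by
  have h1 := E₄_cube_sub_E₆_sq z
  have h2 := E₄_cube_sub_E₆_sq w
  constructor
  · intro h
    have : (1728 : ℂ) * (E₄ z ^ 3 * Δ w) = 1728 * (E₄ w ^ 3 * Δ z) := by
      linear_combination (E₄ w ^ 3) * h1 - (E₄ z ^ 3) * h2 - h
    exact mul_left_cancel₀ (by norm_num) this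
  · intro h
    linear_combination (E₄ w ^ 3) * h1 - (E₄ z ^ 3) * h2 - 1728 * h

end Fermat.Agent.S20.L1
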