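import Fermat.Agent.S20.Core
import Fermat.Agent.S20.JInj
import Fermat.Agent.S20.L1.Exports

/-!
# S20 — level one divisors (Skeleton L0.1 + L1.1-L1.3, helper140)

* `coe_mem_MF_top`, `coe_mem_SF_top` : bundled level one forms are in `MF ⊤ k` / `SF ⊤ k`;
* `E₄_mem`, `E₆_mem`, `discriminant_mem` (Skeleton L0.1);
* `levelOne_smul_eq` : `f (γ • z) = denom γ z ^ k * f z`;
* `E₆_I`, `E₄_rhoPt` : values at the elliptic points;
* `E₆_eq_zero_iff`, `E₄_eq_zero_iff`, `jDiff_eq_zero_iff`, `Pform_eq_zero_iff` : zero sets;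
* `levelOneDivisor_E₆`, `levelOneDivisor_E₄`, `levelOneDivisor_generic` (Skeleton L1.1-L1.3).
-/

set_option autoImplicit false

noncomputable section

namespace Fermat.Agent.S20.L1

open UpperHalfPlane ModularForm EisensteinSeries MatrixGroups Filter
open scoped Manifold Topology Real

local notation "Δ" => ModularForm.discriminant

/-! ## Membership in the function-level spaces -/

/-- Bundled level one modular forms lie in the function-level space `MF ⊤ k`. -/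
theorem coe_mem_MF_top {k : ℤ} (f : ModularForm 𝒮ℒ k) : (⇑f : ℍ → ℂ) ∈ MF ⊤ k := by
  refine ⟨ModularFormClass.holo f, fun γ _ => levelOne_slash_eq f γ, fun γ => ?_⟩
  rw [levelOne_slash_eq f γ]
  exact levelOne_isBoundedAtImInfty f

/-- Bundled level one cusp forms lie in the function-level space `SF ⊤ k`. -/
theorem coe_mem_SF_top {k : ℤ} (f : CuspForm 𝒮ℒ k) : (⇑f : ℍ → ℂ) ∈ SF ⊤ k := by
  have hs : ∀ γ : SL(2, ℤ), (f : ℍ → ℂ) ∣[k] γ = f := fun γ =>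
    SlashInvariantFormClass.slash_action_eq f _ ⟨γ, rfl⟩
  refine ⟨CuspFormClass.holo f, fun γ _ => hs γ, fun γ => ?_⟩
  rw [hs γ]
  exact CuspFormClass.zero_at_infty f

/-- L0.1 -/
theorem E₄_mem : (⇑E₄ : ℍ → ℂ) ∈ MF ⊤ 4 := coe_mem_MF_top E₄

/-- L0.1 -/
theorem E₆_mem : (⇑E₆ : ℍ → ℂ) ∈ MF ⊤ 6 := coe_mem_MF_top E₆

/-- L0.1 -/
theorem discriminant_mem : (Δ : ℍ → ℂ) ∈ SF ⊤ 12 := coe_mem_SF_top CuspForm.discriminant

/-- Products of level one forms (function level). -/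
theorem mul_mem_MF_top {a b : ℤ} {f g : ℍ → ℂ} (hf : f ∈ MF ⊤ a) (hg : g ∈ MF ⊤ b) :
    f * g ∈ MF ⊤ (a + b) := by
  obtain ⟨hf1, hf2, hf3⟩ := hf
  obtain ⟨hg1, hg2, hg3⟩ := hg
  have hs : ∀ γ : SL(2, ℤ), (f * g) ∣[a + b] γ = f * g := fun γ => by
    rw [ModularForm.mul_slash_SL2, hf2 γ (Subgroup.mem_top γ), hg2 γ (Subgroup.mem_top γ)]
  refine ⟨hf1.mul hg1, fun γ _ => hs γ, fun γ => ?_⟩
  rw [hs γ]
  have h1 := hf3 1
  have h2 := hg3 1
  rw [SlashAction.slash_one] at h1 h2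
  exact h1.mul h2

/-- `E₄ ^ 3` as a function-level form of weight `12`. -/
theorem E₄_cube_mem : (fun z : ℍ => E₄ z ^ 3) ∈ MF ⊤ 12 := by
  have h := mul_mem_MF_top E₄_mem (mul_mem_MF_top E₄_mem E₄_mem)
  have he : (fun z : ℍ => E₄ z ^ 3) = (⇑E₄ : ℍ → ℂ) * (⇑E₄ * ⇑E₄) := by
    funext z
    simp only [Pi.mul_apply]
    ring
  rw [he]
  exact h

/-- `jDiff z₀ = Δ(z₀) E₄³ - E₄(z₀)³ Δ` is a level one form of weight `12`. -/
theorem jDiff_mem (z₀ : ℍ) : jDiff z₀ ∈ MF ⊤ 12 := by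
  have he : jDiff z₀ = Δ z₀ • (fun z : ℍ => E₄ z ^ 3) - (E₄ z₀ ^ 3) • (Δ : ℍ → ℂ) := by
    funext z
    simp only [jDiff, Pi.sub_apply, Pi.smul_apply, smul_eq_mul]
    ring
  rw [he]
  exact Submodule.sub_mem _ (Submodule.smul_mem _ _ E₄_cube_mem)
    (Submodule.smul_mem _ _ (SF_le_MF _ _ discriminant_mem))

/-! ## The transformation rule in multiplicative form -/

/-- `f (γ • z) = (c z + d) ^ k f z` for level one forms. -/
lemma levelOne_smul_eq {k : ℤ} (f : ModularForm 𝒮ℒ k) (γ : SL(2, ℤ)) (z : ℍ) :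
    f (γ • z) = denom γ z ^ k * f z := by
  have h := congrFun (levelOne_slash_eq f γ) z
  rw [SL_slash_apply] at h
  have hd : denom γ z ^ k ≠ 0 := zpow_ne_zero _ (denom_ne_zero _ _)
  rw [zpow_neg] at h
  field_simp at h
  rw [h]

/-- The same for `Δ`. -/
lemma discriminant_smul_eq (γ : SL(2, ℤ)) (z : ℍ) :
    Δ (γ • z) = denom γ z ^ (12 : ℤ) * Δ z := by
  have h := congrFun (discriminant_mem.2.1 γ (Subgroup.mem_top γ)) z
  rw [SL_slash_apply] at h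
  have hd : denom γ z ^ (12 : ℤ) ≠ 0 := zpow_ne_zero _ (denom_ne_zero _ _)
  rw [zpow_neg] at h
  field_simp at h
  exact_mod_cast h

lemma levelOne_smul_eq_zero_iff {k : ℤ} (f : ModularForm 𝒮ℒ k) (γ : SL(2, ℤ)) (z : ℍ) :
    f (γ • z) = 0 ↔ f z = 0 := by
  rw [levelOne_smul_eq, mul_eq_zero]
  exact or_iff_right (zpow_ne_zero _ (denom_ne_zero _ _))

/-! ## Values at the elliptic points -/

lemma S_smul_I : ModularGroup.S • UpperHalfPlane.I = UpperHalfPlane.I := by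
  rw [UpperHalfPlane.modular_S_smul]
  ext
  simp

/-- `E₆ (i) = 0`. -/
theorem E₆_I : E₆ UpperHalfPlane.I = 0 := by
  have h := levelOne_smul_eq E₆ ModularGroup.S UpperHalfPlane.I
  rw [S_smul_I, ModularGroup.denom_S] at h
  have h6 : ((UpperHalfPlane.I : ℍ) : ℂ) ^ (6 : ℤ) = -1 := by
    have : ((UpperHalfPlane.I : ℍ) : ℂ) = Complex.I := rfl
    rw [this]
    norm_cast
    rw [show (6 : ℕ) = 2 * 3 by norm_num, pow_mul, Complex.I_sq]
    norm_num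
  rw [h6] at h
  have : (2 : ℂ) * E₆ UpperHalfPlane.I = 0 := by linear_combination h
  simpa using this

/-- `ρ = e^{2πi/3}` (same body as `rho` of the skeletons). -/
def rhoPt : ℍ := ⟨⟨-1 / 2, Real.sqrt 3 / 2⟩, by simp⟩

lemma coe_rhoPt : ((rhoPt : ℍ) : ℂ) = ⟨-1 / 2, Real.sqrt 3 / 2⟩ := rfl

lemma rhoPt_sq_add : ((rhoPt : ℍ) : ℂ) ^ 2 + (rhoPt : ℂ) + 1 = 0 := by
  rw [coe_rhoPt]
  apply Complex.ext
  · simp [pow_two]
    have h3 : Real.sqrt 3 * Real.sqrt 3 = 3 := Real.mul_self_sqrt (by norm_num)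
    nlinarith
  · simp [pow_two]
    ring

lemma ST_smul_rhoPt : (ModularGroup.S * ModularGroup.T) • rhoPt = rhoPt := by
  rw [mul_smul, UpperHalfPlane.modular_S_smul]
  ext
  show (-((ModularGroup.T • rhoPt : ℍ) : ℂ))⁻¹ = (rhoPt : ℂ)
  have hT : ((ModularGroup.T • rhoPt : ℍ) : ℂ) = (rhoPt : ℂ) + 1 := by
    have := UpperHalfPlane.modular_T_smul rhoPt
    rw [this]
    simp [add_comm]
  rw [hT]
  apply inv_eq_of_mul_eq_one_left
  linear_combination -rhoPt_sq_add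

lemma denom_ST (z : ℍ) :
    denom ((ModularGroup.S * ModularGroup.T : SL(2, ℤ)) : GL (Fin 2) ℝ) z = (z : ℂ) + 1 := by
  rw [ModularGroup.denom_apply]
  simp [ModularGroup.coe_S, ModularGroup.coe_T, Matrix.mul_apply, Fin.sum_univ_two]

/-- `E₄ (ρ) = 0`. -/
theorem E₄_rhoPt : E₄ rhoPt = 0 := by
  have h := levelOne_smul_eq E₄ (ModularGroup.S * ModularGroup.T) rhoPt
  rw [ST_smul_rhoPt, denom_ST] at h
  have hr := rhoPt_sq_add
  have h4 : (((rhoPt : ℍ) : ℂ) + 1) ^ (4 : ℤ) = -(rhoPt : ℂ) - 1 := by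
    norm_cast
    linear_combination ((rhoPt : ℂ) ^ 2 + 3 * (rhoPt : ℂ) + 2) * hr
  rw [h4] at h
  have h2 : ((rhoPt : ℂ) + 2) * E₄ rhoPt = 0 := by linear_combination h
  rcases mul_eq_zero.mp h2 with h0 | h0
  · exfalso
    have : ((rhoPt : ℍ) : ℂ) = -2 := by linear_combination h0
    rw [this] at hr
    norm_num at hr
  · exact h0

/-! ## Zero sets -/

/-- The zeros of `E₆` are exactly the orbit of `i`. -/
theorem E₆_eq_zero_iff (z : ℍ) : E₆ z = 0 ↔ ∃ γ : SL(2, ℤ), γ • UpperHalfPlane.I = z := by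
  constructor
  · intro hz
    refine j_inj UpperHalfPlane.I z ?_
    rw [hz, E₆_I]
    ring
  · rintro ⟨γ, rfl⟩
    rw [levelOne_smul_eq_zero_iff]
    exact E₆_I

/-- The zeros of `E₄` are exactly the orbit of `ρ`. -/
theorem E₄_eq_zero_iff (z : ℍ) : E₄ z = 0 ↔ ∃ γ : SL(2, ℤ), γ • rhoPt = z := by
  constructor
  · intro hz
    refine j_inj rhoPt z ?_
    rw [hz, E₄_rhoPt]
    ring
  · rintro ⟨γ, rfl⟩
    rw [levelOne_smul_eq_zero_iff]
    exact E₄_rhoPt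

/-- The zeros of `jDiff z₀` are exactly the orbit of `z₀` (no hypothesis on `z₀`). -/
theorem jDiff_eq_zero_iff (z₀ z : ℍ) : jDiff z₀ z = 0 ↔ ∃ γ : SL(2, ℤ), γ • z₀ = z := by
  constructor
  · intro hz
    refine exists_smul_eq_of_j_eq_h544 z₀ z ?_
    simp only [jDiff] at hz
    linear_combination -hz
  · rintro ⟨γ, rfl⟩
    simp only [jDiff]
    rw [levelOne_smul_eq E₄ γ z₀, discriminant_smul_eq γ z₀]
    have : (denom γ z₀ ^ (4 : ℤ)) ^ 3 = denom γ z₀ ^ (12 : ℤ) := by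
      rw [← zpow_natCast, ← zpow_mul]
      norm_num
    rw [mul_pow, this]
    ring

/-- Zero set of `Pform τ₀ = E₄³ E₆(τ₀)² - E₆² E₄(τ₀)³` (shape of helper860's `Division.lean`). -/
theorem Pform_eq_zero_iff (τ₀ z : ℍ) :
    E₄ z ^ 3 * E₆ τ₀ ^ 2 - E₆ z ^ 2 * E₄ τ₀ ^ 3 = 0 ↔ ∃ g : SL(2, ℤ), g • τ₀ = z := by
  rw [Pform_eq_jDiff, mul_eq_zero, or_iff_right (by norm_num : (-1728 : ℂ) ≠ 0)]
  exact jDiff_eq_zero_iff τ₀ z

/-! ## Behaviour at `i∞` -/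

lemma not_isZeroAtImInfty_of_tendsto {f : ℍ → ℂ} {c : ℂ} (h : Tendsto f atImInfty (𝓝 c))
    (hc : c ≠ 0) : ¬ IsZeroAtImInfty f := fun h0 =>
  hc (tendsto_nhds_unique h h0)

lemma tendsto_discriminant : Tendsto (Δ : ℍ → ℂ) atImInfty (𝓝 0) :=
  (discriminant_mem.2.2 1).congr' (by rw [SlashAction.slash_one])

lemma tendsto_jDiff (z₀ : ℍ) : Tendsto (jDiff z₀) atImInfty (𝓝 (Δ z₀)) := by
  have h := ((tendsto_E₄.pow 3).mul_const (Δ z₀)).sub (tendsto_discriminant.const_mul (E₄ z₀ ^ 3))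
  show Tendsto (fun z : ℍ => E₄ z ^ 3 * Δ z₀ - E₄ z₀ ^ 3 * Δ z) atImInfty (𝓝 (Δ z₀))
  simpa using h

/-! ## The three level one divisors -/

/-- L1.1 -/
theorem levelOneDivisor_E₆ : LevelOneDivisor UpperHalfPlane.I 6 ⇑E₆ where
  mem := E₆_mem
  zero_iff := E₆_eq_zero_iff
  simple := deriv_E₆_ne_zero
  not_zero_at_infty := not_isZeroAtImInfty_of_tendsto tendsto_E₆ one_ne_zero

/-- L1.2 -/
theorem levelOneDivisor_E₄ : LevelOneDivisor rhoPt 4 ⇑E₄ where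
  mem := E₄_mem
  zero_iff := E₄_eq_zero_iff
  simple := deriv_E₄_ne_zero
  not_zero_at_infty := not_isZeroAtImInfty_of_tendsto tendsto_E₄ one_ne_zero

/-- L1.3 (with the function written as `jDiff z₀`). -/
theorem levelOneDivisor_jDiff (z₀ : ℍ) (h4 : E₄ z₀ ≠ 0) (h6 : E₆ z₀ ≠ 0) :
    LevelOneDivisor z₀ 12 (jDiff z₀) where
  mem := jDiff_mem z₀
  zero_iff := jDiff_eq_zero_iff z₀
  simple := fun _ hz => (deriv_ne_zero_iff_D_ne_zero _ _).mpr (D_jDiff_ne_zero' h4 h6 hz)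
  not_zero_at_infty := not_isZeroAtImInfty_of_tendsto (tendsto_jDiff z₀) (discriminant_ne_zero z₀)

/-- L1.3 (verbatim Skeleton shape). -/
theorem levelOneDivisor_generic (z₀ : ℍ) (h4 : E₄ z₀ ≠ 0) (h6 : E₆ z₀ ≠ 0) :
    LevelOneDivisor z₀ 12 (fun z => E₄ z ^ 3 * Δ z₀ - E₄ z₀ ^ 3 * Δ z) :=
  levelOneDivisor_jDiff z₀ h4 h6

/-- Every point of `ℍ` carries a level one divisor (of weight `4`, `6` or `12`). -/
theorem exists_levelOneDivisor (z₀ : ℍ) : ∃ (w : ℤ) (P : ℍ → ℂ), 0 < w ∧ LevelOneDivisor z₀ w P := by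
  by_cases h4 : E₄ z₀ = 0
  · obtain ⟨γ, hγ⟩ := (E₄_eq_zero_iff z₀).mp h4
    refine ⟨4, ⇑E₄, by norm_num, ⟨E₄_mem, fun z => ?_, deriv_E₄_ne_zero,
      not_isZeroAtImInfty_of_tendsto tendsto_E₄ one_ne_zero⟩⟩
    rw [E₄_eq_zero_iff z]
    constructor
    · rintro ⟨g, rfl⟩
      exact ⟨g * γ⁻¹, by rw [← hγ, mul_smul, inv_smul_smul]⟩
    · rintro ⟨g, rfl⟩
      exact ⟨g * γ, by rw [mul_smul, hγ]⟩
  by_cases h6 : E₆ z₀ = 0
  · obtain ⟨γ, hγ⟩ := (E₆_eq_zero_iff z₀).mp h6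
    refine ⟨6, ⇑E₆, by norm_num, ⟨E₆_mem, fun z => ?_, deriv_E₆_ne_zero,
      not_isZeroAtImInfty_of_tendsto tendsto_E₆ one_ne_zero⟩⟩
    rw [E₆_eq_zero_iff z]
    constructor
    · rintro ⟨g, rfl⟩
      exact ⟨g * γ⁻¹, by rw [← hγ, mul_smul, inv_smul_smul]⟩
    · rintro ⟨g, rfl⟩
      exact ⟨g * γ, by rw [mul_smul, hγ]⟩
  · exact ⟨12, jDiff z₀, by norm_num, levelOneDivisor_jDiff z₀ h4 h6⟩

end Fermat.Agent.S20.L1
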